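import Fermat.Agent.IntegralStructure.Main
import Fermat.Prelude.Def_CuspForm_HeckeAlgebra
import Fermat.Prelude.Thm_CuspForm_intLattice_fg
import Fermat.Prelude.Thm_CuspForm_mem_intLattice_of_mem_heckeAlgebra

/-!
# The Hecke algebra of cusp forms on `Γ₀(N)` is a finitely generated `ℤ`-module

`heckeAlgebra_finite`, which is S22: in weight `k ≥ 1` the algebra acts on the finitely generated
lattice of integral forms, faithfully as the lattice spans (`hasIntegralStructure`); in weight
`k ≤ 0` there are no cusp forms.
-/

set_option autoImplicit false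

noncomputable section

open CongruenceSubgroup CuspForm

namespace Fermat.Agent.IntegralStructure

theorem cuspForm_eq_zero_of_nonpos (N : ℕ) [NeZero N] {k : ℤ} (hk : k ≤ 0)
    (f : CuspForm (Gamma0 N) k) : f = 0 := by
  refine eq_zero_of_coeffSeq fun n hn => ?_
  have h0 : (k * (Gamma0 N).index).toNat = 0 :=
    Int.toNat_eq_zero.2 (mul_nonpos_of_nonpos_of_nonneg hk (by positivity))
  obtain rfl : n = 0 := by rw [h0] at hn; simpa using hn
  exact CuspFormClass.qExpansion_coeff_zero f one_pos (one_mem_strictPeriods_Gamma0 N)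

theorem isAddTorsionFree_cuspForm (N : ℕ) (k : ℤ) :
    IsAddTorsionFree (CuspForm (Gamma0 N) k) :=
  .of_isTorsionFree ℂ _

theorem intLattice_free (N : ℕ) [NeZero N] (k : ℤ) : Module.Free ℤ ↥(intLattice N k) := by
  have : Module.Finite ℤ ↥(intLattice N k) := Module.Finite.iff_fg.mpr (intLattice_fg N k)
  have := isAddTorsionFree_cuspForm N k
  exact Module.free_of_finite_type_torsion_free'

/-- Restriction of Hecke operators to the integral lattice. -/
def latticeAction (N : ℕ) [NeZero N] (k : ℤ) (hk : 1 ≤ k) (S : Set ℕ) :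
    heckeAlgebra N k S →ₗ[ℤ] Module.End ℤ (intLattice N k) where
  toFun t := LinearMap.restrict ((t : Module.End ℂ (CuspForm (Gamma0 N) k)).restrictScalars ℤ)
    (fun _ hf => mem_intLattice_of_mem_heckeAlgebra hk t.2 hf)
  map_add' _ _ := LinearMap.ext fun _ => Subtype.ext rfl
  map_smul' _ _ := LinearMap.ext fun _ => Subtype.ext rfl

/-- The Hecke algebra away from `S` on cusp forms of level `N` and weight `k` is a finite
`ℤ`-module. -/
theorem heckeAlgebra_finite (N : ℕ) [NeZero N] (k : ℤ) (S : Set ℕ) :
    Module.Finite ℤ (heckeAlgebra N k S) := by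
  by_cases hk : 1 ≤ k
  · have : Module.Finite ℤ ↥(intLattice N k) := Module.Finite.iff_fg.mpr (intLattice_fg N k)
    refine Module.Finite.of_injective (latticeAction N k hk S) fun s t hst => ?_
    refine Subtype.ext (LinearMap.ext_on (hasIntegralStructure N k) fun f hf => ?_)
    exact congrArg Subtype.val (LinearMap.congr_fun hst ⟨f, hf⟩)
  · have : Subsingleton (CuspForm (Gamma0 N) k) := ⟨fun f g => by
      rw [cuspForm_eq_zero_of_nonpos N (by omega) f, cuspForm_eq_zero_of_nonpos N (by omega) g]⟩
    exact Module.Finite.of_finite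

end Fermat.Agent.IntegralStructure
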