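import Mathlib.FieldTheory.IsAlgClosed.Classification
import Mathlib.FieldTheory.Galois.Infinite
import Mathlib.FieldTheory.AlgebraicClosure
import Mathlib.Analysis.Complex.Polynomial.Basic

/-!
# Elements of `ℂ` fixed by all field automorphisms are rational, and Galois descent
-/

set_option autoImplicit false

noncomputable section

namespace Fermat.Agent.IntegralStructure

open MvPolynomial

/-- An automorphism of the ring generated by a transcendence basis extends. -/
theorem exists_ringEquiv_extending {R : Type*} [Field R] [Algebra R ℂ] {ι : Type*}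
    {v : ι → ℂ} (hv : IsTranscendenceBasis R v) (e : MvPolynomial ι R ≃+* MvPolynomial ι R) :
    ∃ σ : ℂ ≃+* ℂ, ∀ p : MvPolynomial ι R, σ (aeval v p) = aeval v (e p) := by
  let := IsAlgClosed.isAlgClosure_of_transcendence_basis v hv
  let E : Algebra.adjoin R (Set.range v) ≃+* Algebra.adjoin R (Set.range v) :=
    hv.1.aevalEquiv.symm.toRingEquiv.trans (e.trans hv.1.aevalEquiv.toRingEquiv)
  refine ⟨IsAlgClosure.equivOfEquiv ℂ ℂ E, fun p => ?_⟩
  have h1 : ∀ q, algebraMap (Algebra.adjoin R (Set.range v)) ℂ (hv.1.aevalEquiv q) = aeval v q :=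
    fun q => hv.1.algebraMap_aevalEquiv q
  rw [← h1 p, IsAlgClosure.equivOfEquiv_algebraMap, ← h1 (e p)]
  congr 1
  simp [E]

/-- A complex number fixed by all field automorphisms is rational. -/
theorem isRat_of_forall_ringEquiv_fixed {x : ℂ} (hx : ∀ σ : ℂ ≃+* ℂ, σ x = x) :
    ∃ r : ℚ, x = (r : ℂ) := by
  by_cases halg : IsAlgebraic ℚ x
  · let Q := algebraicClosure ℚ ℂ
    obtain ⟨s, hs⟩ := exists_isTranscendenceBasis Q ℂ
    let y : Q := ⟨x, mem_algebraicClosure_iff.2 halg⟩
    have h0 := algebraicClosure.isAlgClosure ℚ ℂ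
    have : Normal ℚ Q := by
      convert @IsAlgClosure.normal ℚ Q _ _ _ h0
    have : IsGalois ℚ Q := ⟨⟩
    have hfix : ∀ φ : Q ≃ₐ[ℚ] Q, φ y = y := by
      intro φ
      obtain ⟨σ, hσ⟩ := exists_ringEquiv_extending hs (mapEquiv _ φ.toRingEquiv)
      have h := hσ (C y)
      simp only [aeval_C, mapEquiv_apply, map_C] at h
      change σ x = ((φ y : Q) : ℂ) at h
      exact Subtype.ext (h.symm.trans (hx σ))
    have hbot : y ∈ (⊥ : IntermediateField ℚ Q) :=
      (InfiniteGalois.mem_bot_iff_fixed y).2 hfix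
    obtain ⟨r, hr⟩ := IntermediateField.mem_bot.1 hbot
    refine ⟨r, ?_⟩
    have := congrArg (fun z : Q => (z : ℂ)) hr
    simpa [y] using this.symm
  · exfalso
    have hind : AlgebraicIndepOn ℚ id ({x} : Set ℂ) := by
      refine (algebraicIndependent_singleton_iff ⟨x, rfl⟩).2 ?_
      exact halg
    obtain ⟨s, hs, hbasis⟩ := exists_isTranscendenceBasis_superset hind
    let e : MvPolynomial s ℚ ≃+* MvPolynomial s ℚ :=
      (AlgEquiv.ofAlgHom (aeval fun i => -X i) (aeval fun i => -X i)
        (by ext i; simp) (by ext i; simp) : MvPolynomial s ℚ ≃ₐ[ℚ] MvPolynomial s ℚ).toRingEquiv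
    obtain ⟨σ, hσ⟩ := exists_ringEquiv_extending hbasis e
    have h := hσ (X ⟨x, hs rfl⟩)
    simp [e, hx σ] at h
    have hx0 : x = 0 := by linear_combination h / 2
    exact halg (hx0 ▸ isAlgebraic_zero)

/-- Galois descent: a space of sequences with a finite set of separating coordinates which is
stable under `Aut ℂ` is spanned by its rational members. -/
theorem le_span_rational {V : Submodule ℂ (ℕ → ℂ)} {B : Finset ℕ}
    (hB : ∀ v ∈ V, (∀ i ∈ B, v i = 0) → v = 0)
    (hV : ∀ σ : ℂ ≃+* ℂ, ∀ v ∈ V, (fun i => σ (v i)) ∈ V) :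
    V ≤ Submodule.span ℂ {v | v ∈ V ∧ ∀ i, ∃ r : ℚ, v i = (r : ℂ)} := by
  classical
  let S : (ℕ → ℂ) → Finset ℕ := fun v => B.filter fun i => v i ≠ 0
  suffices h : ∀ n : ℕ, ∀ v ∈ V, (S v).card = n →
      v ∈ Submodule.span ℂ {v | v ∈ V ∧ ∀ i, ∃ r : ℚ, v i = (r : ℂ)} by
    intro v hv; exact h _ v hv rfl
  intro n
  induction n using Nat.strong_induction_on with
  | _ n ih =>
    intro v hv hn
    by_cases hz : v = 0
    · simp [hz]
    -- A member `u` of minimal support inside that of `v`, scaled to `w` with `w i₀ = 1`, is fixed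
    -- by all `σ`, so rational; subtracting a multiple of it from `v` shrinks the support.
    have hex : ∃ m, ∃ u ∈ V, u ≠ 0 ∧ S u ⊆ S v ∧ (S u).card = m :=
      ⟨_, v, hv, hz, subset_rfl, rfl⟩
    obtain ⟨u, hu, hu0, hsub, hcard⟩ := Nat.find_spec hex
    obtain ⟨i₀, hi₀⟩ : (S u).Nonempty := by
      rw [Finset.nonempty_iff_ne_empty]
      intro he
      refine hu0 (hB u hu fun i hi => ?_)
      by_contra hne
      have hm : i ∈ S u := Finset.mem_filter.2 ⟨hi, hne⟩
      simp [he] at hm
    have hi₀' : u i₀ ≠ 0 := (Finset.mem_filter.1 hi₀).2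
    set w : ℕ → ℂ := (u i₀)⁻¹ • u with hw
    have hwV : w ∈ V := V.smul_mem _ hu
    have hw1 : w i₀ = 1 := by simp [hw, inv_mul_cancel₀ hi₀']
    have hwS : ∀ i ∈ B, w i ≠ 0 → i ∈ S u := by
      intro i hi hne
      refine Finset.mem_filter.2 ⟨hi, fun h0 => hne ?_⟩
      simp [hw, h0]
    have hrat : ∀ i, ∃ r : ℚ, w i = (r : ℂ) := by
      intro i
      refine isRat_of_forall_ringEquiv_fixed fun σ => ?_
      have hdV : (fun j => σ (w j)) - w ∈ V := V.sub_mem (hV σ w hwV) hwV
      by_contra hne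
      have hd0 : (fun j => σ (w j)) - w ≠ 0 := fun h0 =>
        hne (sub_eq_zero.1 (congrFun h0 i))
      have hlt : S ((fun j => σ (w j)) - w) ⊆ (S u).erase i₀ := by
        intro j hj
        obtain ⟨hjB, hjne⟩ := Finset.mem_filter.1 hj
        refine Finset.mem_erase.2 ⟨?_, ?_⟩
        · rintro rfl
          exact hjne (by simp [hw1])
        · refine hwS j hjB fun h0 => hjne ?_
          simp [h0]
      have hlt' : (S ((fun j => σ (w j)) - w)).card < Nat.find hex := by
        rw [← hcard]
        exact (Finset.card_le_card hlt).trans_lt (Finset.card_erase_lt_of_mem hi₀)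
      exact Nat.find_min hex hlt'
        ⟨_, hdV, hd0, hlt.trans ((Finset.erase_subset _ _).trans hsub), rfl⟩
    have hrest : v - v i₀ • w ∈ V := V.sub_mem hv (V.smul_mem _ hwV)
    have hcard' : (S (v - v i₀ • w)).card < n := by
      rw [← hn]
      refine (Finset.card_le_card ?_).trans_lt (Finset.card_erase_lt_of_mem (hsub hi₀))
      intro j hj
      obtain ⟨hjB, hjne⟩ := Finset.mem_filter.1 hj
      refine Finset.mem_erase.2 ⟨?_, ?_⟩
      · rintro rfl
        exact hjne (by simp [hw1])
      · by_contra hns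
        have hv0 : v j = 0 := by
          by_contra h0
          exact hns (Finset.mem_filter.2 ⟨hjB, h0⟩)
        have hw0 : w j = 0 := by
          by_contra h0
          exact hns (hsub (hwS j hjB h0))
        exact hjne (by simp [hv0, hw0])
    have h1 := ih _ hcard' _ hrest rfl
    have h2 : w ∈ Submodule.span ℂ {v | v ∈ V ∧ ∀ i, ∃ r : ℚ, v i = (r : ℂ)} :=
      Submodule.subset_span ⟨hwV, hrat⟩
    have := add_mem h1 (Submodule.smul_mem _ (v i₀) h2)
    simpa using this

end Fermat.Agent.IntegralStructure
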