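import Fermat.Agent.IntegralStructure.Stability
import Fermat.Agent.IntegralStructure.AutComplex
import Fermat.Prelude.Def_CuspForm_IntegralStructure
import Fermat.Prelude.Thm_CuspForm_intLattice_fg
import Fermat.Prelude.Thm_ModularForm_sturm_bound_Gamma0

/-!
# The integral structure on cusp forms on `Γ₀(N)`

`hasIntegralStructure`, in any weight (S23 is weight two): forms with integral expansions span.

1. The space of coefficient sequences is stable under the automorphisms of `ℂ` (`Stability`) and
   is detected by finitely many coefficients (Sturm), so it is spanned by rational sequences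
   (`AutComplex`).
2. A form with rational coefficients is a quotient of combinations of level one forms and powers
   of one form with integral expansion (`Theta`), and satisfies a monic relation over level one
   forms (`Conjugates`).
3. These are spanned by forms with integral expansions (`LevelOne`), so the denominators of the
   coefficients are bounded (`FormalSeries`; `exists_nsmul_mem_intLattice`).
-/

set_option autoImplicit false

noncomputable section

open UpperHalfPlane ModularForm CongruenceSubgroup

namespace Fermat.Agent.IntegralStructure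

variable {N : ℕ} [NeZero N] {k : ℤ}

/-- The sequence of coefficients of a cusp form, as a linear map. -/
def coeffSeq (N : ℕ) [NeZero N] (k : ℤ) : CuspForm (Gamma0 N) k →ₗ[ℂ] (ℕ → ℂ) where
  toFun f n := (qExpansion 1 ⇑f).coeff n
  map_add' f g := by
    funext n
    rw [FunLike.coe_add, ModularForm.qExpansion_add one_pos (one_mem_strictPeriods_Gamma0 N) f g,
      map_add]
    rfl
  map_smul' c f := by
    funext n
    rw [FunLike.coe_smul, ModularForm.qExpansion_smul one_pos (one_mem_strictPeriods_Gamma0 N),
      PowerSeries.coeff_smul]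
    rfl

/-- The sequence consists of the coefficients of the expansion. -/
theorem coeffSeq_apply (f : CuspForm (Gamma0 N) k) (n : ℕ) :
    coeffSeq N k f n = ModularFormClass.qCoeff ⇑f n := rfl

/-- The Sturm bound: a cusp form whose first coefficients vanish is zero. -/
theorem eq_zero_of_coeffSeq {f : CuspForm (Gamma0 N) k}
    (h : ∀ n ≤ (k * (Gamma0 N).index).toNat / 12, coeffSeq N k f n = 0) : f = 0 := by
  have hz := ModularForm.sturm_bound_Gamma0 N (ModularFormClass.modularForm f) h
  refine DFunLike.coe_injective ?_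
  exact congrArg (fun F : ModularForm (Gamma0 N) k => (⇑F : ℍ → ℂ)) hz

/-- A cusp form is determined by its coefficient sequence. -/
theorem coeffSeq_injective : Function.Injective (coeffSeq N k) :=
  (injective_iff_map_eq_zero _).2 fun _ hf => eq_zero_of_coeffSeq fun n _ => congrFun hf n

/-- A cusp form with rational coefficients has bounded denominators. -/
theorem exists_nsmul_mem_intLattice (f : CuspForm (Gamma0 N) k)
    (hf : ∀ n, ∃ r : ℚ, coeffSeq N k f n = (r : ℂ)) :
    ∃ D : ℕ, D ≠ 0 ∧ D • f ∈ CuspForm.intLattice N k := by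
  obtain ⟨n, bn, bd, c, -, hbn, hbd, hc, hd0, hrel, hpoly, -⟩ := exists_relations f
  have hmem : ∀ (a : ℤ) (b : ℕ → qFun),
    (∀ j : ℕ, IsFullInvariant (a + (j : ℤ) * 12) (b j : ℍ → ℂ)) →
      qHom (thetaPoly N n b) ∈ intSpan := by
    intro a b hb
    simp only [thetaPoly, map_sum, map_mul, map_pow]
    exact sum_mem fun j _ => mul_mem_intSpan (qHom_mem_intSpan _ (hb j))
      (Submodule.subset_span (pow_mem (qHom_theta_mem N) _))
  have hr := congrArg qHom hrel
  rw [map_mul] at hr
  have hp := congrArg qHom hpoly
  simp only [map_add, map_sum, map_mul, map_pow, map_zero] at hp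
  obtain ⟨D, hD, hD'⟩ := exists_nsmul_mem_intSeries_of_root (F := qHom (ofGamma0 f))
    (p := fun j => qHom (c j)) hf (hmem 0 bd hbd) (fun h0 => hd0 ((qHom_eq_zero_iff _).1 h0))
    (hmem k bn hbn) hr (fun j _ => qHom_mem_intSpan _ (hc j)) hp
  refine ⟨D, hD, Submodule.subset_span fun m => ?_⟩
  obtain ⟨z, hz⟩ := mem_intSeries_iff.1 hD' m
  refine ⟨z, ?_⟩
  rw [← coeffSeq_apply, map_nsmul, Pi.smul_apply]
  rw [map_nsmul] at hz
  exact hz

/-- `S_k(Γ₀(N))` has a basis of forms with integral `q`-expansions. -/
theorem hasIntegralStructure (N : ℕ) [NeZero N] (k : ℤ) : CuspForm.HasIntegralStructure N k := by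
  rw [CuspForm.HasIntegralStructure, eq_top_iff]
  rintro f -
  have key := le_span_rational (V := LinearMap.range (coeffSeq N k))
    (B := Finset.range ((k * (Gamma0 N).index).toNat / 12 + 1)) ?_ ?_
    (LinearMap.mem_range_self _ f)
  · have hset : {v | v ∈ LinearMap.range (coeffSeq N k) ∧ ∀ i, ∃ r : ℚ, v i = (r : ℂ)} =
        coeffSeq N k '' {g | ∀ i, ∃ r : ℚ, coeffSeq N k g i = (r : ℂ)} := by
      ext v
      constructor
      · rintro ⟨⟨g, rfl⟩, hg⟩; exact ⟨g, hg, rfl⟩
      · rintro ⟨g, hg, rfl⟩; exact ⟨⟨g, rfl⟩, hg⟩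
    rw [hset, Submodule.span_image, Submodule.mem_map] at key
    obtain ⟨g, hg, hgf⟩ := key
    rw [coeffSeq_injective hgf] at hg
    refine Submodule.span_le.2 ?_ hg
    intro g hg
    obtain ⟨D, hD, hD'⟩ := exists_nsmul_mem_intLattice g hg
    have : g = (D : ℂ)⁻¹ • (D • g) := by
      rw [← Nat.cast_smul_eq_nsmul ℂ D g, inv_smul_smul₀ (Nat.cast_ne_zero.2 hD)]
    rw [this]
    exact Submodule.smul_mem _ _ (Submodule.subset_span hD')
  · rintro _ ⟨g, rfl⟩ hg
    rw [eq_zero_of_coeffSeq (f := g) fun n hn => hg n (Finset.mem_range.2 (Nat.lt_succ_of_le hn)),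
      map_zero]
  · rintro σ _ ⟨g, rfl⟩
    obtain ⟨g', hg'⟩ := exists_conj_cuspForm σ.toRingHom g
    refine ⟨g', funext fun n => ?_⟩
    show (qExpansion 1 ⇑g').coeff n = _
    rw [hg', PowerSeries.coeff_map]
    rfl

/-- Cusp forms of level `N` and weight `k` form a finite dimensional space. -/
theorem finiteDimensional_cuspForm (N : ℕ) [NeZero N] (k : ℤ) :
    FiniteDimensional ℂ (CuspForm (Gamma0 N) k) := by
  obtain ⟨s, hs⟩ := CuspForm.intLattice_fg N k
  refine ⟨⟨s, top_le_iff.1 ?_⟩⟩
  rw [← hasIntegralStructure N k]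
  refine Submodule.span_le.2 fun x hx => ?_
  rw [← hs] at hx
  exact Submodule.span_le_restrictScalars ℤ ℂ (s : Set (CuspForm (Gamma0 N) k)) hx

end Fermat.Agent.IntegralStructure
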