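import Fermat.Agent.IntegralStructure.Conjugates
import Fermat.Agent.IntegralStructure.Removable

/-!
# `q`-expansions of cusp forms on `Γ₀(N)` are stable under field endomorphisms of `ℂ`
-/

set_option autoImplicit false

noncomputable section

open UpperHalfPlane ModularForm Filter CongruenceSubgroup
open scoped Manifold Topology MatrixGroups

namespace Fermat.Agent.IntegralStructure

/-- Weight `w` invariance under `Γ₀(N)`. -/
def IsGamma0Invariant (N : ℕ) (w : ℤ) (f : ℍ → ℂ) : Prop :=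
  ∀ γ ∈ Gamma0 N, f ∣[w] γ = f

theorem IsGamma0Invariant.mul {N : ℕ} {a b : ℤ} {f g : ℍ → ℂ} (hf : IsGamma0Invariant N a f)
    (hg : IsGamma0Invariant N b g) : IsGamma0Invariant N (a + b) (f * g) := by
  intro γ hγ; rw [mul_slash_SL2, hf γ hγ, hg γ hγ]

theorem IsGamma0Invariant.pow {N : ℕ} {a : ℤ} {f : ℍ → ℂ} (hf : IsGamma0Invariant N a f) :
    ∀ m : ℕ, IsGamma0Invariant N (m * a) (f ^ m)
  | 0 => fun γ _ => by simpa using is_invariant_one γ
  | m + 1 => by
    rw [pow_succ, show ((m + 1 : ℕ) : ℤ) * a = m * a + a by push_cast; ring]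
    exact (hf.pow m).mul hf

variable {N : ℕ} [NeZero N] {k : ℤ}

/-- `∑_{j<n} b j θ^{n-1-j}`. -/
def thetaPoly (N : ℕ) [NeZero N] (n : ℕ) (b : ℕ → qFun) : qFun :=
  ∑ j ∈ Finset.range n, b j * theta N ^ (n - 1 - j)

theorem thetaPoly_invariant {n : ℕ} {b : ℕ → qFun} {a : ℤ}
    (hb : ∀ j : ℕ, IsFullInvariant (a + (j : ℤ) * 12) (b j : ℍ → ℂ)) :
    IsGamma0Invariant N (a + ((n - 1 : ℕ) : ℤ) * 12) (thetaPoly N n b : ℍ → ℂ) := by
  intro γ hγ
  rw [thetaPoly, AddSubmonoidClass.coe_finsetSum, SlashAction.sum_slash]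
  refine Finset.sum_congr rfl fun j hj => ?_
  rw [Finset.mem_range] at hj
  rw [MulMemClass.coe_mul, SubmonoidClass.coe_pow,
    show a + ((n - 1 : ℕ) : ℤ) * 12 = (a + (j : ℤ) * 12) + ((n - 1 - j : ℕ) : ℤ) * 12 by
      rw [show ((n - 1 - j : ℕ) : ℤ) = ((n - 1 : ℕ) : ℤ) - j by omega]; ring,
    mul_slash_SL2, hb j γ]
  congr 1
  exact (IsGamma0Invariant.pow (N := N) ((fun _ hγ => slash_thetaFun_of_mem hγ)) _) γ hγ

/-- The algebraic data attached to a cusp form on `Γ₀(N)`. -/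
theorem exists_relations (f : CuspForm (Gamma0 N) k) :
    ∃ (n : ℕ) (bn bd c : ℕ → qFun), 1 ≤ n ∧
      (∀ j : ℕ, IsFullInvariant (k + (j : ℤ) * 12) (bn j : ℍ → ℂ)) ∧
      (∀ j : ℕ, IsFullInvariant (0 + (j : ℤ) * 12) (bd j : ℍ → ℂ)) ∧
      (∀ j : ℕ, IsFullInvariant ((j : ℤ) * k) (c j : ℍ → ℂ)) ∧
      thetaPoly N n bd ≠ 0 ∧
      ofGamma0 f * thetaPoly N n bd = thetaPoly N n bn ∧
      ofGamma0 f ^ n + ∑ j ∈ Finset.Icc 1 n, c j * ofGamma0 f ^ (n - j) = 0 ∧
      ∀ j ∈ Finset.Icc 1 n, (qHom (c j)).coeff 0 = 0 := by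
  classical
  let i₀ : Cosets N := ((1 : SL(2, ℤ)) : Cosets N)
  let Fa := conjugate k N ⇑f
  let Ta := conjugate 12 N (thetaFun N)
  let un : Cosets N → ℍ → ℂ := fun _ => 1
  have hF : ∀ (γ : SL(2, ℤ)) c, Fa c ∣[k] γ = Fa (γ⁻¹ • c) :=
    fun γ c => conjugate_slash ((fun _ hγ => Newforms.slash_gamma0_eq f hγ)) c γ
  have hT : ∀ (γ : SL(2, ℤ)) c, Ta c ∣[(12 : ℤ)] γ = Ta (γ⁻¹ • c) :=
    fun γ c => conjugate_slash (fun _ hγ => slash_thetaFun_of_mem hγ) c γ
  have hU : ∀ (γ : SL(2, ℤ)) c, un c ∣[(0 : ℤ)] γ = un (γ⁻¹ • c) :=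
    fun γ c => is_invariant_one γ
  -- Lagrange interpolation over the cosets gives `f * P(θ) = Q(θ)` for polynomials with level one
  -- coefficients, and `f` is a root of the product of `T - f'` over its conjugates `f'`.
  have h1 := interpCoeff_invariant Fa Ta hF hT
  have h2 := interpCoeff_invariant un Ta hU hT
  have h3 := negEsymm_univ_invariant Fa hF
  let bn : ℕ → qFun := fun j => ⟨_, mem_qFun_of_invariant (h1 j)
    (interpCoeff_mem_boundedHol (conjugate_cusp_mem f) conjugate_theta_mem j)⟩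
  let bd : ℕ → qFun := fun j => ⟨_, mem_qFun_of_invariant (h2 j)
    (interpCoeff_mem_boundedHol (v := un) (fun _ => one_mem _) conjugate_theta_mem j)⟩
  let c : ℕ → qFun := fun j => ⟨_, mem_qFun_of_invariant (h3 j)
    (negEsymm_mem_boundedHol (conjugate_cusp_mem f) Finset.univ j)⟩
  have hTi : Ta i₀ = thetaFun N := conjugate_one (fun _ hγ => slash_thetaFun_of_mem hγ)
  have hFi : Fa i₀ = ⇑f := conjugate_one ((fun _ hγ => Newforms.slash_gamma0_eq f hγ))
  have hbn : (thetaPoly N (Fintype.card (Cosets N)) bn : ℍ → ℂ)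
      = Fa i₀ * ∏ i ∈ Finset.univ.erase i₀, (Ta i₀ - Ta i) := by
    rw [← sum_interpCoeff_eq, thetaPoly, AddSubmonoidClass.coe_finsetSum]
    simp only [MulMemClass.coe_mul, SubmonoidClass.coe_pow, coe_theta, hTi, bn]
  have hbd : (thetaPoly N (Fintype.card (Cosets N)) bd : ℍ → ℂ)
      = ∏ i ∈ Finset.univ.erase i₀, (Ta i₀ - Ta i) := by
    rw [← one_mul (∏ i ∈ Finset.univ.erase i₀, (Ta i₀ - Ta i)),
      show (1 : ℍ → ℂ) = un i₀ from rfl, ← sum_interpCoeff_eq, thetaPoly,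
      AddSubmonoidClass.coe_finsetSum]
    simp only [MulMemClass.coe_mul, SubmonoidClass.coe_pow, coe_theta, hTi, bd]
  refine ⟨Fintype.card (Cosets N), bn, bd, c, Fintype.card_pos, h1, h2, h3, ?_, ?_, ?_, ?_⟩
  · intro h0
    have h0' : ∏ i ∈ Finset.univ.erase i₀, (Ta i₀ - Ta i) = 0 := by rw [← hbd, h0]; rfl
    obtain ⟨i, hi, hi0⟩ := (UpperHalfPlane.prod_eq_zero_iff
      (fun i _ => (conjugate_theta_mem i₀).1.sub (conjugate_theta_mem i).1)).1 h0'
    rw [show conjugate 12 N (thetaFun N) i₀ = thetaFun N from hTi] at hi0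
    exact conjugate_theta_ne (Finset.ne_of_mem_erase hi) hi0
  · refine Subtype.ext ?_
    rw [MulMemClass.coe_mul, hbn, hbd, hFi, coe_ofGamma0]
  · refine Subtype.ext ?_
    have := root_negEsymm Fa i₀
    rw [hFi] at this
    rw [AddMemClass.coe_add, AddSubmonoidClass.coe_finsetSum]
    simp only [MulMemClass.coe_mul, SubmonoidClass.coe_pow, coe_ofGamma0, c]
    exact this
  · intro j hj
    refine tendsto_nhds_unique (tendsto_coeff_zero_of_mem_qFun (c j)) ?_
    show Tendsto (negEsymm Fa Finset.univ j) atImInfty (𝓝 0)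
    rw [show (0 : ℂ) = ∑ t ∈ (Finset.univ : Finset (Cosets N)).powersetCard j, (0 : ℂ) by simp]
    simp only [negEsymm, Finset.sum_fn]
    refine tendsto_finsetSum _ fun t ht => ?_
    have hne : t.Nonempty := by
      rw [← Finset.card_pos, (Finset.mem_powersetCard.1 ht).2]; simp at hj; omega
    rw [show (0 : ℂ) = ∏ _i ∈ t, (0 : ℂ) by
      rw [Finset.prod_const, zero_pow hne.card_pos.ne']]
    simp only [Finset.prod_fn]
    refine tendsto_finsetProd _ fun i _ => ?_
    have : IsZeroAtImInfty (Fa i) := CuspFormClass.zero_at_infty_slash f _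
    have h0 : Tendsto (fun x => -Fa i x) atImInfty (𝓝 0) := by simpa using Tendsto.neg this
    exact h0

theorem qHom_pow_theta_conj (σ : ℂ →+* ℂ) (m : ℕ) :
    PowerSeries.map σ (qHom (theta N ^ m)) = qHom (theta N ^ m) := by
  obtain ⟨z, hz⟩ := qHom_theta_mem N
  rw [map_pow, map_pow, ← hz]
  congr 1
  ext i
  simp

/-- The conjugated relation, cleared of denominators. -/
private theorem conj_relation (σ : ℂ →+* ℂ) {n : ℕ} {F : qFun} {c c' : ℕ → qFun}
    (hc : ∀ j, qHom (c' j) = PowerSeries.map σ (qHom (c j)))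
    (hpoly : F ^ n + ∑ j ∈ Finset.Icc 1 n, c j * F ^ (n - j) = 0) {D M : qFun}
    (hM : qHom M = PowerSeries.map σ (qHom F) * qHom D) (z : ℍ) :
    (M : ℍ → ℂ) z ^ n + ∑ j ∈ Finset.Icc 1 n,
      (c' j : ℍ → ℂ) z * (M : ℍ → ℂ) z ^ (n - j) * (D : ℍ → ℂ) z ^ j = 0 := by
  have hrel : M ^ n + ∑ j ∈ Finset.Icc 1 n, c' j * M ^ (n - j) * D ^ j = 0 := by
    refine (qHom_eq_zero_iff _).1 ?_
    have h0 : PowerSeries.map σ (qHom F) ^ n + ∑ j ∈ Finset.Icc 1 n,
        qHom (c' j) * PowerSeries.map σ (qHom F) ^ (n - j) = 0 := by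
      simp only [hc, ← map_pow, ← map_mul, ← map_sum, ← map_add, hpoly, map_zero]
    rw [map_add, map_sum, map_pow]
    simp only [map_mul, map_pow, hM]
    calc _ = qHom D ^ n * (PowerSeries.map σ (qHom F) ^ n + ∑ j ∈ Finset.Icc 1 n,
          qHom (c' j) * PowerSeries.map σ (qHom F) ^ (n - j)) := by
          rw [mul_add, Finset.mul_sum]
          congr 1
          · ring
          · refine Finset.sum_congr rfl fun j hj => ?_
            have hjn : j ≤ n := (Finset.mem_Icc.1 hj).2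
            rw [show qHom D ^ n = qHom D ^ (n - j) * qHom D ^ j by
              rw [← pow_add, Nat.sub_add_cancel hjn]]
            ring
      _ = 0 := by rw [h0, mul_zero]
  have := congrFun (congrArg Subtype.val hrel) z
  simpa [AddSubmonoidClass.coe_finsetSum] using this

/-- A holomorphic quotient of a root of the homogenised equation is a root of the equation. -/
private theorem quotient_root {n : ℕ} (hn : 1 ≤ n) {c : ℕ → qFun} {D M : qFun}
    (hD0 : (D : ℍ → ℂ) ≠ 0) {G : ℍ → ℂ} (hG : MDiff G) (hGD : G * (D : ℍ → ℂ) = M)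
    (hM : ∀ z, (M : ℍ → ℂ) z ^ n + ∑ j ∈ Finset.Icc 1 n,
      (c j : ℍ → ℂ) z * (M : ℍ → ℂ) z ^ (n - j) * (D : ℍ → ℂ) z ^ j = 0) (z : ℍ) :
    G z ^ n + ∑ j ∈ Finset.Icc 1 n, (c j : ℍ → ℂ) z * G z ^ (n - j) = 0 := by
  let R : ℍ → ℂ := G ^ n + ∑ j ∈ Finset.Icc 1 n, (c j : ℍ → ℂ) * G ^ (n - j)
  have hRd : MDiff R :=
    (hG.pow n).add (MDifferentiable.sum fun j _ => (c j).2.2.1.mul (hG.pow _))
  have hDn : MDiff ((D : ℍ → ℂ) ^ n) := D.2.2.1.pow n
  have hmul : R * (D : ℍ → ℂ) ^ n = 0 := by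
    funext w
    have h := hM w
    rw [← congrFun hGD w] at h
    simp only [R, Pi.mul_apply, Pi.add_apply, Pi.pow_apply, Finset.sum_apply, Pi.zero_apply]
      at h ⊢
    rw [← h, add_mul, Finset.sum_mul]
    congr 1
    · ring
    · refine Finset.sum_congr rfl fun j hj => ?_
      have hjn : j ≤ n := (Finset.mem_Icc.1 hj).2
      rw [show (D : ℍ → ℂ) w ^ n = (D : ℍ → ℂ) w ^ (n - j) * (D : ℍ → ℂ) w ^ j by
        rw [← pow_add, Nat.sub_add_cancel hjn]]
      ring
  rcases (UpperHalfPlane.mul_eq_zero_iff hRd hDn).1 hmul with h | h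
  · have := congrFun h z; simpa [R] using this
  · exact absurd (funext fun w => (pow_eq_zero_iff (by omega : n ≠ 0)).1 (congrFun h w)) hD0

omit [NeZero N] in
/-- The quotient of invariant functions is invariant. -/
private theorem quotient_invariant {a : ℤ} {D M : qFun} (hD0 : (D : ℍ → ℂ) ≠ 0) {G : ℍ → ℂ}
    (hG : MDiff G) (hGD : G * (D : ℍ → ℂ) = M) (hDi : IsGamma0Invariant N a (D : ℍ → ℂ))
    (hMi : IsGamma0Invariant N (k + a) (M : ℍ → ℂ)) : IsGamma0Invariant N k G := by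
  intro γ hγ
  have h := hMi γ hγ
  rw [← hGD, mul_slash_SL2, hDi γ hγ] at h
  rcases (UpperHalfPlane.mul_eq_zero_iff ((hG.slash k γ).sub hG) D.2.2.1).1
    (by rw [sub_mul]; exact sub_eq_zero.2 h) with h | h
  · exact sub_eq_zero.1 h
  · exact absurd h hD0

/-- A root of an equation with invariant coefficients vanishing at infinity vanishes at all
cusps. -/
private theorem isZeroAtImInfty_slash_of_root {n : ℕ} {c : ℕ → qFun}
    (hc : ∀ j : ℕ, IsFullInvariant ((j : ℤ) * k) (c j : ℍ → ℂ))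
    (hc0 : ∀ j ∈ Finset.Icc 1 n, (qHom (c j)).coeff 0 = 0) {G : ℍ → ℂ}
    (hG : ∀ z, G z ^ n + ∑ j ∈ Finset.Icc 1 n, (c j : ℍ → ℂ) z * G z ^ (n - j) = 0)
    (γ : SL(2, ℤ)) : IsZeroAtImInfty (G ∣[k] γ) := by
  rw [IsZeroAtImInfty, ZeroAtFilter, Metric.tendsto_nhds]
  intro ε hε
  have hc0' : ∀ᶠ z in atImInfty, ∀ j ∈ Finset.Icc 1 n, ‖(c j : ℍ → ℂ) z‖ ≤ (ε / 4) ^ j := by
    rw [Finset.eventually_all]
    intro j hj
    have h := (tendsto_coeff_zero_of_mem_qFun (c j)).norm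
    rw [hc0 j hj, norm_zero] at h
    exact h.eventually (eventually_le_nhds (by positivity))
  filter_upwards [hc0'] with z hz
  rw [dist_zero_right]
  refine (norm_root_le (n := n) (c := fun j => (c j : ℍ → ℂ) z) (by positivity) hz ?_).trans_lt
    (by linarith)
  have h := hG (γ • z)
  set u : ℂ := denom γ z ^ (-k) with hu
  have hcz : ∀ j : ℕ, (c j : ℍ → ℂ) (γ • z) * u ^ j = (c j : ℍ → ℂ) z := by
    intro j
    have h' := congrFun (hc j γ) z
    rw [SL_slash_apply] at h'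
    rwa [hu, ← zpow_natCast (denom γ z ^ (-k)) j, ← zpow_mul,
      show -k * (j : ℤ) = -((j : ℤ) * k) by ring]
  rw [SL_slash_apply, ← hu]
  calc _ = (G (γ • z) ^ n + ∑ j ∈ Finset.Icc 1 n, (c j : ℍ → ℂ) (γ • z) * G (γ • z) ^ (n - j))
        * u ^ n := by
        rw [add_mul, Finset.sum_mul, mul_pow]
        congr 1
        refine Finset.sum_congr rfl fun j hj => ?_
        have hjn : j ≤ n := (Finset.mem_Icc.1 hj).2
        rw [← hcz j, show u ^ n = u ^ j * u ^ (n - j) by rw [← pow_add, Nat.add_sub_cancel' hjn]]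
        ring
    _ = 0 := by rw [h, zero_mul]

/-- Applying a field endomorphism of `ℂ` to the coefficients of a cusp form on `Γ₀(N)` gives a
cusp form on `Γ₀(N)`. -/
theorem exists_conj_cuspForm (σ : ℂ →+* ℂ) (f : CuspForm (Gamma0 N) k) :
    ∃ g : CuspForm (Gamma0 N) k, qExpansion 1 ⇑g = PowerSeries.map σ (qExpansion 1 ⇑f) := by
  -- `f` is a quotient of two theta polynomials with level one coefficients, to which `σ` applies.
  obtain ⟨n, bn, bd, c, hn, hbn, hbd, hc, hd0, hrel, hpoly, hc0⟩ := exists_relations f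
  choose bn' hbn' hbn'' using fun j => exists_conj_levelOne σ (bn j) (hbn j)
  choose bd' hbd' hbd'' using fun j => exists_conj_levelOne σ (bd j) (hbd j)
  choose c' hc' hc'' using fun j => exists_conj_levelOne σ (c j) (hc j)
  have hconj : ∀ b b' : ℕ → qFun, (∀ j, qHom (b' j) = PowerSeries.map σ (qHom (b j))) →
      qHom (thetaPoly N n b') = PowerSeries.map σ (qHom (thetaPoly N n b)) := by
    intro b b' h
    simp only [thetaPoly, map_sum, map_mul, h]
    refine Finset.sum_congr rfl fun j _ => ?_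
    rw [qHom_pow_theta_conj]
  set D := thetaPoly N n bd' with hDdef
  set M := thetaPoly N n bn' with hMdef
  have hqD : qHom D = PowerSeries.map σ (qHom (thetaPoly N n bd)) := hconj bd bd' hbd''
  have hqM : qHom M = PowerSeries.map σ (qHom (ofGamma0 f)) * qHom D := by
    rw [hMdef, hconj bn bn' hbn'', hqD, ← map_mul, ← map_mul, hrel]
  have hD0 : D ≠ 0 := by
    intro h0
    refine hd0 ((qHom_eq_zero_iff _).1 ?_)
    refine (PowerSeries.map_injective σ σ.injective) ?_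
    rw [← hqD, h0, map_zero, map_zero]
  have hD0' : (D : ℍ → ℂ) ≠ 0 := fun h0 => hD0 (Subtype.ext h0)
  have hptM := conj_relation σ hc'' hpoly hqM
  -- The quotient of the conjugated polynomials is a holomorphic invariant `G`, vanishing at cusps.
  obtain ⟨G, hG, hGD⟩ := exists_holomorphic_quotient M.2.2.1 D.2.2.1 hD0' hn
    (c := fun j => (c' j : ℍ → ℂ)) (fun j _ => (c' j).2.2.1.continuous) hptM
  have hGinv : IsGamma0Invariant N k G := quotient_invariant hD0' hG hGD
    (by simpa only [zero_add, hDdef] using thetaPoly_invariant (N := N) (n := n) hbd')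
    (thetaPoly_invariant (N := N) (n := n) hbn')
  have hzero : ∀ γ : SL(2, ℤ), IsZeroAtImInfty (G ∣[k] γ) :=
    isZeroAtImInfty_slash_of_root hc'
      (fun j hj => by rw [hc'', PowerSeries.coeff_map, hc0 j hj, map_zero])
      (quotient_root hn hD0' hG hGD hptM)
  let g : CuspForm (Gamma0 N) k :=
    { toFun := G
      slash_action_eq' := fun A hA => by obtain ⟨γ, hγ, rfl⟩ := hA; exact hGinv γ hγ
      holo' := hG
      zero_at_cusps' := fun {cu} hcu => by
        rw [Subgroup.IsArithmetic.isCusp_iff_isCusp_SL2Z] at hcu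
        rw [OnePoint.isZeroAt_iff_forall_SL2Z hcu]
        intro γ _
        exact hzero γ }
  refine ⟨g, ?_⟩
  have h : ofGamma0 g * D = M := Subtype.ext hGD
  -- Its expansion is the conjugate of that of `f`.
  have hq := congrArg qHom h
  rw [map_mul, hqM] at hq
  exact mul_right_cancel₀ (fun h0 => hD0 ((qHom_eq_zero_iff D).1 h0)) hq

end Fermat.Agent.IntegralStructure
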