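import Fermat.Agent.IntegralStructure.LevelOne
import Fermat.Prelude.Def_ModularForm_HeckeOperator

/-!
# A form of weight twelve with integral coefficients and stabiliser exactly `Γ₀(N)`
-/

set_option autoImplicit false

noncomputable section

open UpperHalfPlane Function ModularForm Filter CongruenceSubgroup
open scoped Topology MatrixGroups Real

namespace Fermat.Agent.IntegralStructure

/-- `1728 Δ(Nτ)` as a function. -/
def thetaFun (N : ℕ) (z : ℍ) : ℂ := (delta1728 : ℍ → ℂ) (heckeDiagMatrix N • z)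

theorem delta1728_smul (γ : SL(2, ℤ)) (w : ℍ) :
    (delta1728 : ℍ → ℂ) (γ • w) =
      ((γ 1 0 : ℂ) * w + (γ 1 1 : ℂ)) ^ (12 : ℤ) * (delta1728 : ℍ → ℂ) w :=
  (slash_action_eq'_iff 12 _ γ w).1 (congrFun (delta1728_mem.1 γ) w)

theorem slash_thetaFun_of_mem {N : ℕ} [NeZero N] {γ : SL(2, ℤ)} (hγ : γ ∈ Gamma0 N) :
    thetaFun N ∣[(12 : ℤ)] γ = thetaFun N := by
  funext z
  rw [slash_action_eq'_iff]
  obtain ⟨e, he⟩ : (N : ℤ) ∣ γ 1 0 :=
    (ZMod.intCast_zmod_eq_zero_iff_dvd _ _).1 (Gamma0_mem.1 hγ)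
  have hdet : γ 0 0 * γ 1 1 - γ 0 1 * γ 1 0 = 1 := by
    rw [← Matrix.det_fin_two]; exact γ.2
  let γ' : SL(2, ℤ) := ⟨!![γ 0 0, N * γ 0 1; e, γ 1 1], by
    rw [Matrix.det_fin_two_of]; linear_combination hdet + γ 0 1 * he⟩
  have hN : N ≠ 0 := NeZero.ne N
  have hpt : heckeDiagMatrix N • (γ • z) = γ' • (heckeDiagMatrix N • z) := by
    apply UpperHalfPlane.ext
    rw [coe_heckeDiagMatrix_smul hN, coe_specialLinearGroup_apply, coe_specialLinearGroup_apply,
      coe_heckeDiagMatrix_smul hN]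
    simp only [γ', algebraMap_int_eq, eq_intCast]
    simp [he]
    ring
  show (delta1728 : ℍ → ℂ) (heckeDiagMatrix N • (γ • z)) = _
  rw [hpt, delta1728_smul]
  congr 2
  rw [coe_heckeDiagMatrix_smul hN]
  simp [γ', he]
  ring

theorem periodic_thetaFun (N : ℕ) [NeZero N] : Periodic (thetaFun N ∘ ofComplex) 1 := by
  intro w
  by_cases hw : 0 < w.im
  · have hw' : 0 < (w + 1).im := by simpa using hw
    simp only [comp_apply, ofComplex_apply_of_im_pos hw, ofComplex_apply_of_im_pos hw', thetaFun]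
    have h1 := (Periodic.nat_mul delta1728.2.1 N) ((N : ℂ) * w)
    simp only [comp_apply, mul_one] at h1
    have e1 : heckeDiagMatrix N • (⟨w + 1, hw'⟩ : ℍ) = ofComplex ((N : ℂ) * w + N) := by
      rw [← ofComplex_apply (heckeDiagMatrix N • (⟨w + 1, hw'⟩ : ℍ)),
        coe_heckeDiagMatrix_smul (NeZero.ne N), UpperHalfPlane.coe_mk, mul_add, mul_one]
    have e2 : heckeDiagMatrix N • (⟨w, hw⟩ : ℍ) = ofComplex ((N : ℂ) * w) := by
      rw [← ofComplex_apply (heckeDiagMatrix N • (⟨w, hw⟩ : ℍ)),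
        coe_heckeDiagMatrix_smul (NeZero.ne N), UpperHalfPlane.coe_mk]
    rw [e1, e2]
    exact h1
  · have hw' : ¬ 0 < (w + 1).im := by simpa using hw
    simp only [comp_apply, ofComplex_apply_of_im_nonpos (not_lt.1 hw),
      ofComplex_apply_of_im_nonpos (not_lt.1 hw')]

theorem im_heckeDiagMatrix_smul (N : ℕ) [NeZero N] (z : ℍ) :
    (heckeDiagMatrix N • z).im = N * z.im := by
  rw [← UpperHalfPlane.coe_im, coe_heckeDiagMatrix_smul (NeZero.ne N)]
  simp

theorem tendsto_heckeDiagMatrix_atImInfty (N : ℕ) [NeZero N] :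
    Tendsto (fun z : ℍ => heckeDiagMatrix N • z) atImInfty atImInfty := by
  refine tendsto_comap_iff.2 ?_
  refine (tendsto_comap.const_mul_atTop (r := (N : ℝ)) ?_).congr fun z => ?_
  · exact_mod_cast Nat.pos_of_ne_zero (NeZero.ne N)
  · exact (im_heckeDiagMatrix_smul N z).symm

/-- `1728 Δ(Nτ)`. -/
def theta (N : ℕ) [NeZero N] : qFun :=
  ⟨thetaFun N, periodic_thetaFun N,
    delta1728.2.2.1.comp (mdifferentiable_smul (det_heckeDiagMatrix_pos N)),
    delta1728.2.2.2.comp_tendsto (tendsto_heckeDiagMatrix_atImInfty N)⟩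

@[simp] theorem coe_theta (N : ℕ) [NeZero N] : (theta N : ℍ → ℂ) = thetaFun N := rfl

theorem hasSum_comp_heckeDiag (x : qFun) (m : ℕ → ℂ) (hm : ∀ j, (qHom x).coeff j = m j)
    (N : ℕ) [NeZero N] (τ : ℍ) :
    HasSum (fun n => (if N ∣ n then m (n / N) else 0) • Periodic.qParam (1 : ℝ) τ ^ n)
      ((x : ℍ → ℂ) (heckeDiagMatrix N • τ)) := by
  have hN : N ≠ 0 := NeZero.ne N
  have h := hasSum_qExpansion one_pos x.2.1 x.2.2.1 x.2.2.2 (heckeDiagMatrix N • τ)
  rw [← (mul_right_injective₀ hN).hasSum_iff]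
  · refine h.congr_fun fun j => ?_
    have e : (qExpansion 1 (x : ℍ → ℂ)).coeff j = m j := hm j
    have e' : Periodic.qParam (1 : ℝ) ((heckeDiagMatrix N • τ : ℍ) : ℂ)
        = Periodic.qParam (1 : ℝ) (τ : ℂ) ^ N := by
      rw [coe_heckeDiagMatrix_smul hN]
      simp only [Periodic.qParam, Complex.ofReal_one, div_one, ← Complex.exp_nat_mul]
      congr 1
      ring
    rw [comp_apply, e, e', ← pow_mul]
    simp [Nat.mul_div_cancel_left _ (Nat.pos_of_ne_zero hN)]
  · intro n hn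
    have : ¬ N ∣ n := fun ⟨j, hj⟩ => hn ⟨j, hj.symm⟩
    simp [this]

theorem qHom_coeff_eq_of_hasSum (x : qFun) {c : ℕ → ℂ}
    (hc : ∀ τ : ℍ, HasSum (fun n => c n • Periodic.qParam (1 : ℝ) τ ^ n) ((x : ℍ → ℂ) τ)) (n : ℕ) :
    (qHom x).coeff n = c n := by
  have h1 := (hasFPowerSeriesOnBall_cuspFunction one_pos (qFun_analyticAt x) hc).hasFPowerSeriesAt
  have h2 := (hasFPowerSeriesOnBall_cuspFunction one_pos (qFun_analyticAt x)
    (hasSum_qExpansion one_pos x.2.1 x.2.2.1 x.2.2.2)).hasFPowerSeriesAt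
  simpa [qHom_apply] using congr_arg (FormalMultilinearSeries.coeff · n)
    (h2.eq_formalMultilinearSeries h1)

/-- The theta series has integral expansion. -/
theorem qHom_theta_mem (N : ℕ) [NeZero N] : qHom (theta N) ∈ intSeries ℂ := by
  obtain ⟨z, hz⟩ : qHom delta1728 ∈ intSeries ℂ := delta1728_mem.2
  rw [mem_intSeries_iff]
  intro n
  have hm : ∀ j, (qHom delta1728).coeff j = (z.coeff j : ℂ) := by
    intro j; rw [← hz]; simp
  have hc : ∀ τ : ℍ, HasSum
      (fun n => (if N ∣ n then ((z.coeff (n / N) : ℤ) : ℂ) else 0) • Periodic.qParam (1 : ℝ) τ ^ n)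
      ((theta N : ℍ → ℂ) τ) :=
    fun τ => hasSum_comp_heckeDiag delta1728 _ hm N τ
  refine ⟨if N ∣ n then z.coeff (n / N) else 0, ?_⟩
  rw [qHom_coeff_eq_of_hasSum (theta N) hc n]
  split_ifs <;> simp

/-- The ratio `‖Δ(τ)‖ / exp(-2π Im τ)` tends to one. -/
theorem tendsto_norm_discriminant_div :
    Tendsto (fun τ : ℍ => ‖discriminant τ‖ / Real.exp (-2 * π * τ.im)) atImInfty (𝓝 1) := by
  have h := tendsto_atImInfty_tprod_one_sub_eta_q_pow.norm
  rw [norm_one] at h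
  refine h.congr fun τ => ?_
  have hq : ‖Periodic.qParam 1 (τ : ℂ)‖ = Real.exp (-2 * π * τ.im) := by
    simp [Periodic.qParam, Complex.norm_exp]
  rw [discriminant_eq_q_prod, norm_mul, hq, mul_div_cancel_left₀ _ (Real.exp_pos _).ne']

theorem eq_of_eventually_exp_mul_eq {r s C : ℝ} {u v : ℝ → ℝ} (hC : C ≠ 0)
    (hu : Tendsto u atTop (𝓝 1)) (hv : Tendsto v atTop (𝓝 1))
    (h : ∀ᶠ y in atTop, C * (u y * Real.exp (r * y)) = v y * Real.exp (s * y)) : r = s := by
  have hlim : Tendsto (fun y => Real.exp ((r - s) * y)) atTop (𝓝 C⁻¹) := by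
    have h1 : Tendsto (fun y => v y / (C * u y)) atTop (𝓝 C⁻¹) := by
      have := hv.div (hu.const_mul C) (by simpa using hC)
      rwa [mul_one, one_div] at this
    refine h1.congr' ?_
    filter_upwards [h, hu.eventually_ne one_ne_zero] with y hy hu0
    rw [sub_mul, Real.exp_sub]
    have hpos := (Real.exp_pos (s * y)).ne'
    generalize Real.exp (r * y) = E1 at hy ⊢
    generalize Real.exp (s * y) = E2 at hy hpos ⊢
    field_simp
    linear_combination -hy
  rcases lt_trichotomy (r - s) 0 with hlt | heq | hgt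
  · have : Tendsto (fun y => Real.exp ((r - s) * y)) atTop (𝓝 0) :=
      Real.tendsto_exp_atBot.comp (tendsto_id.const_mul_atTop_of_neg hlt)
    exact absurd (tendsto_nhds_unique hlim this) (inv_ne_zero hC)
  · linarith
  · exact absurd hlim (not_tendsto_nhds_of_tendsto_atTop
      (Real.tendsto_exp_atTop.comp (tendsto_id.const_mul_atTop hgt)) _)

/-- The Hermite normal form of `diag (N, 1) γ`. -/
private theorem exists_triangular (N : ℕ) [NeZero N] (γ : SL(2, ℤ)) :
    ∃ (γ' : SL(2, ℤ)) (g D : ℕ) (B : ℤ), 0 < g ∧ g * D = N ∧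
      !![(N : ℤ), 0; 0, 1] * (γ : Matrix (Fin 2) (Fin 2) ℤ) =
        (γ' : Matrix (Fin 2) (Fin 2) ℤ) * !![(g : ℤ), B; 0, (D : ℤ)] := by
  set a := γ 0 0 with ha
  set b := γ 0 1 with hb
  set c := γ 1 0 with hc
  set d := γ 1 1 with hd
  have hdet : a * d - b * c = 1 := by rw [ha, hb, hc, hd, ← Matrix.det_fin_two]; exact γ.2
  have hNZ : (N : ℤ) ≠ 0 := by exact_mod_cast NeZero.ne N
  have hgpos : 0 < Int.gcd (N * a) c := by
    rw [Int.gcd_pos_iff]
    by_contra hcon
    push Not at hcon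
    rcases mul_eq_zero.1 hcon.1 with h1 | h1
    · exact hNZ h1
    · rw [h1, hcon.2] at hdet; simp at hdet
  set g : ℕ := Int.gcd (N * a) c with hg
  obtain ⟨a', ha'⟩ : (g : ℤ) ∣ N * a := Int.gcd_dvd_left _ _
  obtain ⟨c', hc'⟩ : (g : ℤ) ∣ c := Int.gcd_dvd_right _ _
  set u := Int.gcdA (N * a) c
  set v := Int.gcdB (N * a) c
  have hgZ : (0 : ℤ) < g := by exact_mod_cast hgpos
  have huv : a' * u + c' * v = 1 := by
    have h1 := Int.gcd_eq_gcd_ab (N * a) c
    rw [← hg] at h1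
    exact mul_left_cancel₀ hgZ.ne' (by linear_combination -h1 - u * ha' - v * hc')
  have hD : (g : ℤ) * (a' * d - c' * (N * b)) = N := by
    linear_combination (N : ℤ) * hdet - d * ha' + (N : ℤ) * b * hc'
  obtain ⟨D, hD'⟩ : ∃ D : ℕ, a' * d - c' * (N * b) = D :=
    Int.eq_ofNat_of_zero_le
      (nonneg_of_mul_nonneg_right (hD.symm.le.trans' (Int.natCast_nonneg N)) hgZ)
  refine ⟨⟨!![a', -v; c', u], by rw [Matrix.det_fin_two_of]; linear_combination huv⟩,
    g, D, u * (N * b) + v * d, hgpos, ?_, ?_⟩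
  · rw [hD'] at hD
    exact_mod_cast hD
  · ext i j
    fin_cases i <;> fin_cases j <;>
      simp [Matrix.mul_apply, Fin.sum_univ_two, ← ha, ← hb, ← hc, ← hd, ← hD']
    · linear_combination ha'
    · linear_combination -(N : ℤ) * b * huv
    · linear_combination hc'
    · linear_combination -d * huv

/-- A transformation law for `θ` turns into one between `Δ (N z)` and `Δ ((g z + B) / D)`. -/
private theorem discriminant_heckeDiag_eq {N g D : ℕ} [NeZero N] {B : ℤ} {γ γ' : SL(2, ℤ)}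
    (h : thetaFun N ∣[(12 : ℤ)] γ = thetaFun N) (hD : D ≠ 0)
    (hM : !![(N : ℤ), 0; 0, 1] * (γ : Matrix (Fin 2) (Fin 2) ℤ) =
      (γ' : Matrix (Fin 2) (Fin 2) ℤ) * !![(g : ℤ), B; 0, (D : ℤ)])
    {z w : ℍ} (hw : (w : ℂ) * D = g * z + B) :
    discriminant (heckeDiagMatrix N • z) = ((D : ℂ) ^ 12)⁻¹ * discriminant w := by
  have e := fun i j => congrArg (fun n : ℤ => (n : ℂ)) (congrFun (congrFun hM i) j)
  have e00 := e 0 0
  have e01 := e 0 1
  have e10 := e 1 0
  have e11 := e 1 1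
  simp [Matrix.mul_apply, Fin.sum_univ_two] at e00 e01 e10 e11
  have hDc : (D : ℂ) ≠ 0 := Nat.cast_ne_zero.2 hD
  have h0 : (γ 1 0 : ℂ) * z + γ 1 1 ≠ 0 := by
    have := denom_ne_zero (γ : GL (Fin 2) ℝ) z
    simpa [denom] using this
  have hden : (γ' 1 0 : ℂ) * w + γ' 1 1 = ((γ 1 0 : ℂ) * z + γ 1 1) / D := by
    rw [eq_div_iff hDc]
    linear_combination (γ' 1 0 : ℂ) * hw - (z : ℂ) * e10 - e11
  have hpt : heckeDiagMatrix N • (γ • z) = γ' • w := by
    apply UpperHalfPlane.ext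
    rw [coe_heckeDiagMatrix_smul (NeZero.ne N), coe_specialLinearGroup_apply,
      coe_specialLinearGroup_apply]
    simp only [algebraMap_int_eq, eq_intCast, Complex.ofReal_intCast]
    rw [hden, mul_div_assoc', div_div_eq_mul_div]
    congr 1
    linear_combination (z : ℂ) * e00 + e01 - (γ' 0 0 : ℂ) * hw
  have h1 := congrFun h z
  rw [slash_action_eq'_iff] at h1
  simp only [thetaFun] at h1
  rw [hpt, delta1728_smul, delta1728_apply, delta1728_apply, hden, div_zpow] at h1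
  rw [eq_comm, inv_mul_eq_iff_eq_mul₀ (pow_ne_zero _ hDc)]
  field_simp at h1
  linear_combination h1

/-- Proportional values of `‖Δ‖` along two paths going to the cusp at linear rates force equal
rates. -/
private theorem eq_of_norm_discriminant_comp_eq {r s C : ℝ} (hr : 0 < r) (hs : 0 < s) (hC : C ≠ 0)
    {F G : ℝ → ℍ} (hF : ∀ᶠ y in atTop, (F y).im = r * y) (hG : ∀ᶠ y in atTop, (G y).im = s * y)
    (h : ∀ᶠ y in atTop, C * ‖discriminant (F y)‖ = ‖discriminant (G y)‖) : r = s := by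
  have hlim : ∀ {t : ℝ} {H : ℝ → ℍ}, 0 < t → (∀ᶠ y in atTop, (H y).im = t * y) →
      Tendsto (fun y => ‖discriminant (H y)‖ / Real.exp (-2 * π * (H y).im)) atTop (𝓝 1) :=
    fun ht hH => tendsto_norm_discriminant_div.comp
      (tendsto_comap_iff.2 ((tendsto_id.const_mul_atTop ht).congr' (EventuallyEq.symm hH)))
  refine mul_left_cancel₀ (by positivity : (-2 * π : ℝ) ≠ 0)
    (eq_of_eventually_exp_mul_eq hC (hlim hr hF) (hlim hs hG) ?_)
  filter_upwards [hF, hG, h] with y hy hy' hyy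
  rw [mul_assoc (-2 * π) r y, ← hy, mul_assoc (-2 * π) s y, ← hy',
    div_mul_cancel₀ _ (Real.exp_pos _).ne', div_mul_cancel₀ _ (Real.exp_pos _).ne', hyy]

/-- The stabiliser of `θ` is exactly `Γ₀(N)`. -/
theorem mem_Gamma0_of_slash_thetaFun {N : ℕ} [NeZero N] {γ : SL(2, ℤ)}
    (h : thetaFun N ∣[(12 : ℤ)] γ = thetaFun N) : γ ∈ Gamma0 N := by
  obtain ⟨γ', g, D, B, hg, hgD, hM⟩ := exists_triangular N γ
  have hN : 0 < N := Nat.pos_of_ne_zero (NeZero.ne N)
  have hD : 0 < D := Nat.pos_of_mul_pos_left (hgD ▸ hN)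
  have hNr : (0 : ℝ) < N := Nat.cast_pos.2 hN
  have hgr : (0 : ℝ) < g := Nat.cast_pos.2 hg
  have hDr : (0 : ℝ) < D := Nat.cast_pos.2 hD
  -- the points `z = i y` and `w = (g z + B) / D`
  let Z : ℝ → ℍ := fun y => ⟨Complex.I * (max y 1 : ℝ), by simp⟩
  let W : ℝ → ℍ := fun y => ⟨((g : ℂ) * Z y + B) / D, by simp [Z]; positivity⟩
  have hZ : ∀ᶠ y in atTop, (Z y).im = y := by
    filter_upwards [eventually_ge_atTop 1] with y hy
    simp [Z, ← UpperHalfPlane.coe_im, max_eq_left hy]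
  have hrate : (g : ℝ) / D = N := by
    refine eq_of_norm_discriminant_comp_eq (div_pos hgr hDr) hNr
      (inv_ne_zero (pow_ne_zero 12 hDr.ne')) (F := W) (G := fun y => heckeDiagMatrix N • Z y)
      ?_ ?_ (Eventually.of_forall fun y => ?_)
    · filter_upwards [hZ] with y hy
      simp [W, ← UpperHalfPlane.coe_im] at hy ⊢
      rw [hy]; ring
    · filter_upwards [hZ] with y hy
      rw [im_heckeDiagMatrix_smul, hy]
    · rw [discriminant_heckeDiag_eq h hD.ne' hM (z := Z y) (w := W y)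
        (div_mul_cancel₀ _ (Nat.cast_ne_zero.2 hD.ne'))]
      simp
  have hgN : g = N * D := by
    rw [div_eq_iff hDr.ne'] at hrate
    exact_mod_cast hrate
  have hD1 : D = 1 := by
    rw [hgN, mul_assoc] at hgD
    exact (mul_eq_one.1 ((Nat.mul_eq_left hN.ne').1 hgD)).1
  rw [Gamma0_mem, ZMod.intCast_zmod_eq_zero_iff_dvd]
  have h10 := congrFun (congrFun hM 1) 0
  simp [Matrix.mul_apply, Fin.sum_univ_two, hgN, hD1] at h10
  exact ⟨γ' 1 0, h10.trans (mul_comm _ _)⟩

end Fermat.Agent.IntegralStructure
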